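import Fermat.Agent.LinearGroups.Burnside
import Mathlib.Analysis.CStarAlgebra.Matrix
import Mathlib.Analysis.Complex.Polynomial.Basic
import Mathlib.FieldTheory.KrullTopology
import Mathlib.Topology.Algebra.Group.Basic
import Mathlib.Topology.Instances.Matrix

/-!
# Continuous complex representations of absolute Galois groups have finite image

If `x` is within `1 / 2` of `1` in a normed ring then `‖x² - 1‖ ≥ 3/2 ‖x - 1‖`, so the ball holds no
non-trivial subgroup; hence a continuous homomorphism from a Galois group to `GL n ℂ` kills an open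
subgroup, and it has finite image as an automorphism acts on a finite extension in finitely many
ways. For a matrix of finite order the trace is a sum of `n` roots of unity.
-/

set_option autoImplicit false
set_option linter.style.haveILetI false

noncomputable section

open Matrix
open scoped Matrix.Norms.L2Operator

namespace FA.ComplexGalois

/-- No small subgroups in a normed ring. -/
theorem eq_one_of_pow_near {A : Type*} [NormedRing A] [NormedSpace ℝ A] {x : A}
    (h : ∀ k : ℕ, ‖x ^ 2 ^ k - 1‖ < 1 / 2) : x = 1 := by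
  have hstep : ∀ k : ℕ, (3 / 2 : ℝ) ^ k * ‖x - 1‖ ≤ ‖x ^ 2 ^ k - 1‖ := by
    intro k
    induction k with
    | zero => simp
    | succ k ih =>
      set y := x ^ 2 ^ k - 1
      have hy : x ^ 2 ^ (k + 1) - 1 = (2 : ℝ) • y + y * y := by
        rw [pow_succ (2 : ℕ), pow_mul, sq, two_smul]
        simp only [y]
        noncomm_ring
      have h1 : ‖y‖ * 2 - ‖y‖ * ‖y‖ ≤ ‖(2 : ℝ) • y + y * y‖ := by
        have h2 := norm_sub_norm_le ((2 : ℝ) • y) (-(y * y))
        rw [sub_neg_eq_add, norm_neg, norm_smul, Real.norm_two] at h2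
        linarith [norm_mul_le y y]
      rw [hy, pow_succ]
      refine le_trans ?_ h1
      nlinarith [h k, norm_nonneg y, pow_nonneg (show (0 : ℝ) ≤ 3 / 2 by norm_num) k,
        norm_nonneg (x - 1)]
  by_contra hne
  have hpos : 0 < ‖x - 1‖ := norm_pos_iff.2 (sub_ne_zero.2 hne)
  obtain ⟨k, hk⟩ := pow_unbounded_of_one_lt (1 / (2 * ‖x - 1‖)) (show (1 : ℝ) < 3 / 2 by norm_num)
  have h3 := (hstep k).trans_lt (h k)
  rw [div_lt_iff₀ (by positivity)] at hk
  nlinarith

variable {K L : Type*} [Field K] [Field L] [Algebra K L] [Algebra.IsAlgebraic K L]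
  {n : Type*} [Fintype n] [DecidableEq n]

set_option linter.unusedSectionVars false

/-- A continuous homomorphism to `GL n ℂ` is trivial on the automorphisms fixing a finite
extension. -/
theorem exists_finite_fixing (ρ : (L ≃ₐ[K] L) →* GL n ℂ) (hρ : Continuous ρ) :
    ∃ E : IntermediateField K L, FiniteDimensional K E ∧ ∀ σ ∈ E.fixingSubgroup, ρ σ = 1 := by
  have hcont : Continuous fun σ => ((ρ σ : GL n ℂ) : Matrix n n ℂ) :=
    Units.continuous_val.comp hρ
  have hmem : (fun σ => ((ρ σ : GL n ℂ) : Matrix n n ℂ)) ⁻¹'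
      {A | ‖A - 1‖ < 1 / 2} ∈ nhds (1 : L ≃ₐ[K] L) :=
    ((isOpen_lt (continuous_id.sub continuous_const).norm continuous_const).preimage hcont).mem_nhds
      (by simp)
  obtain ⟨E, hE, hsub⟩ := (krullTopology_mem_nhds_one_iff K L _).1 hmem
  refine ⟨E, hE, fun σ hσ => Units.ext (eq_one_of_pow_near fun k => ?_)⟩
  have := hsub (pow_mem hσ (2 ^ k))
  simpa using this

/-- **Finite image**. -/
theorem finite_range [IsAlgClosed L] (ρ : (L ≃ₐ[K] L) →* GL n ℂ) (hρ : Continuous ρ) :
    Finite ρ.range := by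
  obtain ⟨E, hE, h⟩ := exists_finite_fixing ρ hρ
  haveI := hE
  have hfac : ∀ σ τ : L ≃ₐ[K] L,
      (σ : L →ₐ[K] L).comp E.val = (τ : L →ₐ[K] L).comp E.val → ρ σ = ρ τ := fun σ τ heq => by
    have hmem : τ⁻¹ * σ ∈ E.fixingSubgroup := (IntermediateField.mem_fixingSubgroup_iff _ _).2
      fun x hx => by
        have h1 := congrArg (fun f : E →ₐ[K] L => f ⟨x, hx⟩) heq
        show τ.symm (σ x) = x
        rw [show σ x = τ x from h1, AlgEquiv.symm_apply_apply]
    have := h _ hmem
    rwa [map_mul, map_inv, inv_mul_eq_one, eq_comm] at this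
  classical
  set f : (E →ₐ[K] L) → GL n ℂ := Function.extend
    (fun σ : L ≃ₐ[K] L => (σ : L →ₐ[K] L).comp E.val) ρ 1
  refine Set.Finite.to_subtype ((Set.finite_range f).subset ?_)
  rintro _ ⟨σ, rfl⟩
  exact ⟨(σ : L →ₐ[K] L).comp E.val, Function.FactorsThrough.extend_apply hfac 1 σ⟩

/-- The kernel is open. -/
theorem isOpen_ker (ρ : (L ≃ₐ[K] L) →* GL n ℂ) (hρ : Continuous ρ) :
    IsOpen (ρ.ker : Set (L ≃ₐ[K] L)) := by
  obtain ⟨E, hE, h⟩ := exists_finite_fixing ρ hρ
  haveI := hE
  exact Subgroup.isOpen_mono (fun σ hσ => MonoidHom.mem_ker.2 (h σ hσ))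
    E.fixingSubgroup_isOpen

/-- The roots of the characteristic polynomial of a matrix of finite order, with their sum. -/
theorem exists_roots_of_finite_order {A : Matrix n n ℂ} {e : ℕ} (hA : A ^ e = 1) :
    ∃ s : Multiset ℂ, Multiset.card s = Fintype.card n ∧ (∀ x ∈ s, x ^ e = 1) ∧ A.trace = s.sum :=
  ⟨A.charpoly.roots, by rw [← charpoly_natDegree_eq_dim A,
    (IsAlgClosed.splits A.charpoly).natDegree_eq_card_roots],
    fun x hx => FA.LinearGroups.pow_eq_one_of_mem_roots hA hx, trace_eq_sum_roots_charpoly A⟩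

/-- A matrix of finite order with trace of greatest absolute value is scalar. -/
theorem eq_scalar_of_norm_trace {A : Matrix n n ℂ} {e : ℕ} (he : e ≠ 0) (hA : A ^ e = 1)
    (htr : ‖A.trace‖ = (Fintype.card n : ℝ)) : ∃ z : ℂ, A = z • 1 := by
  classical
  obtain ⟨s, hs, hroot, hsum⟩ := exists_roots_of_finite_order hA
  rcases Multiset.empty_or_exists_mem s with rfl | ⟨x, hx⟩
  · haveI : IsEmpty n := Fintype.card_eq_zero_iff.1 hs.symm
    exact ⟨1, Subsingleton.elim _ _⟩
  have hn : (0 : ℝ) < Fintype.card n :=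
    Nat.cast_pos.2 (hs ▸ Multiset.card_pos_iff_exists_mem.2 ⟨x, hx⟩)
  set u := A.trace / (Fintype.card n : ℂ) with hu
  have hu1 : ‖u‖ = 1 := by
    rw [hu, norm_div, htr, Complex.norm_natCast, div_self hn.ne']
  have hmul : A.trace * starRingEnd ℂ u = (Fintype.card n : ℂ) := by
    rw [show A.trace = (Fintype.card n : ℂ) * u by
      rw [hu, mul_div_cancel₀ _ (Nat.cast_ne_zero.2 (Nat.cast_pos.1 hn).ne')],
      mul_assoc, Complex.mul_conj', hu1]
    simp
  have hre : ∀ y ∈ s, (y * starRingEnd ℂ u).re ≤ 1 := fun y hy =>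
    (Complex.re_le_norm _).trans_eq (by
      rw [norm_mul, Complex.norm_eq_one_of_pow_eq_one (hroot y hy) he, RCLike.norm_conj, hu1,
        mul_one])
  have heq : ∀ y ∈ s, y = u := fun y hy => by
    obtain ⟨t, ht⟩ := Multiset.exists_cons_of_mem hy
    have h1 := congrArg Complex.re hmul
    rw [hsum, ← Multiset.map_id' s, ← Multiset.sum_map_mul_right, ← Complex.coe_reAddGroupHom,
      map_multiset_sum, Complex.coe_reAddGroupHom, Multiset.map_map, ht, Multiset.map_cons,
      Multiset.sum_cons, Complex.natCast_re, ← hs, ht, Multiset.card_cons, Nat.cast_succ] at h1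
    have h2 := Multiset.sum_le_card_nsmul (t.map (Complex.re ∘ fun y => y * starRingEnd ℂ u)) 1
      fun r hr => by
        obtain ⟨w, hw, rfl⟩ := Multiset.mem_map.1 hr
        exact hre w (ht ▸ Multiset.mem_cons_of_mem hw)
    rw [Multiset.card_map, nsmul_one] at h2
    simp only [Function.comp_def] at h2
    have hy1 : (y * starRingEnd ℂ u).re = 1 := by
      refine le_antisymm (hre y hy) ?_
      simp only [Function.comp_apply] at h1
      linarith
    have hy2 : y * starRingEnd ℂ u = 1 := by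
      refine Complex.ext hy1 (Complex.abs_re_eq_norm.1 ?_)
      rw [hy1, abs_one, norm_mul, Complex.norm_eq_one_of_pow_eq_one (hroot y hy) he,
        RCLike.norm_conj, hu1, mul_one]
    calc y = y * starRingEnd ℂ u * u := by
          rw [mul_assoc, mul_comm (starRingEnd ℂ u), Complex.mul_conj', hu1]; simp
      _ = u := by rw [hy2, one_mul]
  have hue : u ^ e = 1 := heq x hx ▸ hroot x hx
  have hu0 : u ≠ 0 := fun h => by simp [h, he] at hue
  have hone := FA.LinearGroups.eq_one_of_trace' (A := u⁻¹ • A) he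
    (by rw [smul_pow, inv_pow, hue, inv_one, one_smul, hA])
    (by
      rw [Matrix.trace_smul, smul_eq_mul, inv_mul_eq_iff_eq_mul₀ hu0, hu,
        div_mul_cancel₀ _ (Nat.cast_ne_zero.2 (Nat.cast_pos.1 hn).ne')])
  exact ⟨u, by rw [← hone, smul_inv_smul₀ hu0]⟩

end FA.ComplexGalois
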